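/-
S18lib / RHCount / Dedekind  (helper1): abstract Dedekind-domain counting behind Riemann–Hurwitz.
`A ⊆ B` Dedekind, `B` finite torsion-free over `A`, separable fraction fields, all residue field
extensions trivial (`hf`: all inertia degrees are one).  With `n = finrank A B`:
* `sum_le_card_normalizedFactors_differentIdeal` :
    `∑_{p ∈ T} (n - #primesOver p) ≤ #normalizedFactors (differentIdeal A B)`   (any characteristic);
* `card_normalizedFactors_differentIdeal_eq` : equality when `A` is an algebra over a field of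
  characteristic zero and every ramified prime lies over `T`.
-/
import Mathlib
import Fermat.Agent.ProgramR.Alg.TameDifferent

set_option autoImplicit false
set_option linter.style.haveILetI false

noncomputable section

namespace Fermat.Agent.S18lib.RHCount

open UniqueFactorizationMonoid Module

attribute [local instance] FractionRing.liftAlgebra FractionRing.isScalarTower_liftAlgebra

section MultisetFacts

variable {α : Type*} [DecidableEq α]

theorem sum_count_le_card (s : Multiset α) (U : Finset α) :
    ∑ a ∈ U, s.count a ≤ Multiset.card s := by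
  have h1 : ∑ a ∈ U, s.count a = ∑ a ∈ U ∩ s.toFinset, s.count a := by
    symm
    refine Finset.sum_subset Finset.inter_subset_left fun a haU ha => ?_
    rw [Multiset.count_eq_zero]
    intro has
    exact ha (Finset.mem_inter.mpr ⟨haU, Multiset.mem_toFinset.mpr has⟩)
  rw [h1, ← Multiset.toFinset_sum_count_eq s]
  exact Finset.sum_le_sum_of_subset Finset.inter_subset_right

theorem sum_count_eq_card {s : Multiset α} {U : Finset α} (hU : s.toFinset ⊆ U) :
    ∑ a ∈ U, s.count a = Multiset.card s := by
  rw [← Multiset.toFinset_sum_count_eq s]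
  symm
  refine Finset.sum_subset hU fun a _ ha => ?_
  rw [Multiset.count_eq_zero]
  intro has
  exact ha (Multiset.mem_toFinset.mpr has)

end MultisetFacts

variable (A : Type*) {B : Type*} [CommRing A] [CommRing B] [Algebra A B]
  [IsDedekindDomain A] [IsDedekindDomain B] [IsTorsionFree A B] [Module.Finite A B]

omit [Module.Finite A B] in
theorem map_ne_bot {p : Ideal A} (hp : p ≠ ⊥) : p.map (algebraMap A B) ≠ ⊥ :=
  (Ideal.map_eq_bot_iff_of_injective (FaithfulSMul.algebraMap_injective A B)).not.mpr hp

omit [Module.Finite A B] in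
theorem ne_bot_of_liesOver {p : Ideal A} (hp : p ≠ ⊥) (P : Ideal B) [P.LiesOver p] : P ≠ ⊥ := by
  rintro rfl
  apply hp
  rw [Ideal.LiesOver.over (p := p) (P := (⊥ : Ideal B))]
  exact Ideal.comap_bot_of_injective _ (FaithfulSMul.algebraMap_injective A B)

section Different

variable [Algebra.IsSeparable (FractionRing A) (FractionRing B)]

/-- `d_P ≥ e_P - 1`. -/
theorem ramificationIdx_sub_one_le_count {p : Ideal A} [p.IsMaximal] (hp : p ≠ ⊥) (P : Ideal B)
    [P.IsPrime] [P.LiesOver p] :
    P.ramificationIdx A - 1 ≤ (normalizedFactors (differentIdeal A B)).count P := by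
  classical
  have hpS := map_ne_bot A (B := B) hp
  have hP0 := ne_bot_of_liesOver A hp P
  have hirr : Irreducible P := (Ideal.prime_of_isPrime hP0 inferInstance).irreducible
  have he := Ideal.IsDedekindDomain.ramificationIdx_eq_normalizedFactors_count p P hpS
  have h1 : P ^ (P.ramificationIdx A) ∣ p.map (algebraMap A B) := by
    rw [pow_dvd_iff_le_emultiplicity, emultiplicity_eq_count_normalizedFactors hirr hpS,
      normalize_eq, he]
  have h2 := pow_sub_one_dvd_differentIdeal A P (P.ramificationIdx A) hp h1
  rw [pow_dvd_iff_le_emultiplicity,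
    emultiplicity_eq_count_normalizedFactors hirr differentIdeal_ne_bot, normalize_eq] at h2
  exact_mod_cast h2

/-- `d_P = e_P - 1` in residue characteristic zero. -/
theorem count_eq_ramificationIdx_sub_one {p : Ideal A} [p.IsMaximal] [CharZero (A ⧸ p)]
    (hp : p ≠ ⊥) (P : Ideal B) [P.IsPrime] [P.LiesOver p] :
    (normalizedFactors (differentIdeal A B)).count P = P.ramificationIdx A - 1 := by
  classical
  refine le_antisymm ?_ (ramificationIdx_sub_one_le_count A hp P)
  have hpS := map_ne_bot A (B := B) hp
  have hP0 := ne_bot_of_liesOver A hp P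
  have hirr : Irreducible P := (Ideal.prime_of_isPrime hP0 inferInstance).irreducible
  have he := Ideal.IsDedekindDomain.ramificationIdx_eq_normalizedFactors_count p P hpS
  have hepos : 0 < P.ramificationIdx A := Ideal.ramificationIdx_pos P A
  have hPmax : P.IsMaximal := Ideal.IsPrime.isMaximal inferInstance hP0
  obtain ⟨Q, hQ1, hQ2⟩ := Ideal.eq_prime_pow_mul_coprime hpS P
  rw [← he] at hQ2
  have hne : P ^ (P.ramificationIdx A) ≠ ⊤ := by
    intro h
    have : P = ⊤ := by
      have h1 : P ^ (P.ramificationIdx A) ≤ P := Ideal.pow_le_self hepos.ne'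
      rw [h] at h1
      exact top_le_iff.mp h1
    exact (inferInstance : P.IsPrime).ne_top this
  have hcop : IsCoprime (P ^ (P.ramificationIdx A)) Q := by
    have : IsCoprime P Q := Ideal.isCoprime_iff_sup_eq.mpr hQ1
    exact this.pow_left
  have hnd := Fermat.Agent.ProgramR.Alg.not_dvd_differentIdeal_of_isCoprime_of_charZero A
    (P ^ (P.ramificationIdx A)) Q hne hcop hQ2.symm
  rw [pow_dvd_iff_le_emultiplicity,
    emultiplicity_eq_count_normalizedFactors hirr differentIdeal_ne_bot, normalize_eq] at hnd
  have : ((normalizedFactors (differentIdeal A B)).count P : ℕ∞) < (P.ramificationIdx A : ℕ∞) :=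
    not_le.mp hnd
  have h3 : (normalizedFactors (differentIdeal A B)).count P < P.ramificationIdx A := by
    exact_mod_cast this
  omega

end Different

section Inertia

omit [IsDedekindDomain A] [IsDedekindDomain B] [IsTorsionFree A B] [Module.Finite A B] in
/-- trivial residue field extension gives inertia degree one. -/
theorem inertiaDeg_eq_one_of_surjective {p : Ideal A} [p.IsMaximal] (P : Ideal B) [P.IsMaximal]
    [P.LiesOver p] (hres : Function.Surjective (algebraMap A (B ⧸ P))) :
    P.inertiaDeg A = 1 := by
  rw [Ideal.inertiaDeg_eq_of_isMaximal p P]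
  letI : Field (A ⧸ p) := Ideal.Quotient.field p
  letI : Field (B ⧸ P) := Ideal.Quotient.field P
  have hsurj : Function.Surjective (algebraMap (A ⧸ p) (B ⧸ P)) := by
    intro y
    obtain ⟨a, ha⟩ := hres y
    refine ⟨Ideal.Quotient.mk p a, ?_⟩
    rw [← ha, ← Ideal.Quotient.algebraMap_eq, ← IsScalarTower.algebraMap_apply]
  have hbij : Function.Bijective (algebraMap (A ⧸ p) (B ⧸ P)) :=
    ⟨(algebraMap (A ⧸ p) (B ⧸ P)).injective, hsurj⟩
  have e : (A ⧸ p) ≃ₗ[A ⧸ p] (B ⧸ P) := LinearEquiv.ofBijective (Algebra.linearMap _ _) hbij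
  rw [← e.finrank_eq, Module.finrank_self]

end Inertia

section Sums

variable (hf : ∀ P : Ideal B, P.IsPrime → P ≠ ⊥ → P.inertiaDeg A = 1)

include hf in
/-- `∑_{P ∣ p} e_P = n` when all residue extensions are trivial. -/
theorem sum_ramificationIdx_eq_finrank {p : Ideal A} [p.IsMaximal] (hp : p ≠ ⊥) :
    ∑ P ∈ IsDedekindDomain.primesOverFinset p B, P.ramificationIdx A = finrank A B := by
  classical
  haveI : Fintype (p.primesOver B) :=
    (Algebra.QuasiFinite.finite_primesOver (R := A) (S := B) p).fintype
  have h := Ideal.sum_ramification_inertia_eq_finrank p B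
  rw [← h, Finset.sum_subtype (IsDedekindDomain.primesOverFinset p B)
    (fun P => IsDedekindDomain.mem_primesOverFinset_iff hp B (P := P))
    (fun P => P.ramificationIdx A)]
  refine Finset.sum_congr rfl fun q _ => ?_
  haveI : q.1.IsPrime := q.2.1
  haveI : q.1.LiesOver p := q.2.2
  have hq0 := ne_bot_of_liesOver A hp q.1
  rw [hf q.1 inferInstance hq0, mul_one]

include hf in
/-- `∑_{P ∣ p} (e_P - 1) = n - #{P ∣ p}`. -/
theorem sum_ramificationIdx_sub_one {p : Ideal A} [p.IsMaximal] (hp : p ≠ ⊥) :
    (∑ P ∈ IsDedekindDomain.primesOverFinset p B, ((P.ramificationIdx A : ℤ) - 1)) =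
      (finrank A B : ℤ) - (IsDedekindDomain.primesOverFinset p B).card := by
  rw [Finset.sum_sub_distrib, ← Nat.cast_sum, sum_ramificationIdx_eq_finrank A hf hp,
    Finset.sum_const, nsmul_eq_mul, mul_one]

variable [Algebra.IsSeparable (FractionRing A) (FractionRing B)]

omit [Module.Finite A B] [IsDedekindDomain A] in
theorem disjoint_primesOverFinset [IsDomain A] {p p' : Ideal A} [p.IsMaximal] [p'.IsMaximal]
    (hp : p ≠ ⊥) (hp' : p' ≠ ⊥) (hpp' : p ≠ p') :
    Disjoint (IsDedekindDomain.primesOverFinset p B) (IsDedekindDomain.primesOverFinset p' B) := by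
  rw [Finset.disjoint_left]
  intro P h1 h2
  rw [IsDedekindDomain.mem_primesOverFinset_iff hp B] at h1
  rw [IsDedekindDomain.mem_primesOverFinset_iff hp' B] at h2
  apply hpp'
  rw [h1.2.over, h2.2.over]

include hf in
/-- **Riemann–Hurwitz lower bound** for the degree of the different. -/
theorem sum_le_card_normalizedFactors_differentIdeal (T : Finset (Ideal A))
    (hT : ∀ p ∈ T, p.IsMaximal ∧ p ≠ ⊥) :
    (∑ p ∈ T, ((finrank A B : ℤ) - (IsDedekindDomain.primesOverFinset p B).card)) ≤
      Multiset.card (normalizedFactors (differentIdeal A B)) := by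
  classical
  set D := normalizedFactors (differentIdeal A B) with hD
  have hdisj : (T : Set (Ideal A)).PairwiseDisjoint
      (fun p => IsDedekindDomain.primesOverFinset p B) := by
    intro p hp p' hp' hpp'
    haveI := (hT p hp).1
    haveI := (hT p' hp').1
    exact disjoint_primesOverFinset A (hT p hp).2 (hT p' hp').2 hpp'
  have h1 : (∑ p ∈ T, ((finrank A B : ℤ) - (IsDedekindDomain.primesOverFinset p B).card)) ≤
      ∑ p ∈ T, ∑ P ∈ IsDedekindDomain.primesOverFinset p B, (D.count P : ℤ) := by
    refine Finset.sum_le_sum fun p hp => ?_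
    haveI := (hT p hp).1
    rw [← sum_ramificationIdx_sub_one A hf (hT p hp).2]
    refine Finset.sum_le_sum fun P hP => ?_
    rw [IsDedekindDomain.mem_primesOverFinset_iff (hT p hp).2 B] at hP
    haveI := hP.1
    haveI := hP.2
    have := ramificationIdx_sub_one_le_count A (hT p hp).2 P
    rw [← hD] at this
    omega
  refine h1.trans ?_
  rw [← Finset.sum_biUnion hdisj, ← Nat.cast_sum]
  exact_mod_cast sum_count_le_card D _

include hf in
/-- **Riemann–Hurwitz (tame case)**: over a field of characteristic zero, if every ramified prime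
lies over `T`, the degree of the different is `∑_{p ∈ T} (n - #{P ∣ p})`. -/
theorem card_normalizedFactors_differentIdeal_eq {K₀ : Type*} [Field K₀] [CharZero K₀]
    [Algebra K₀ A] (T : Finset (Ideal A)) (hT : ∀ p ∈ T, p.IsMaximal ∧ p ≠ ⊥)
    (hram : ∀ P : Ideal B, P.IsPrime → P ≠ ⊥ → P.ramificationIdx A ≠ 1 → P.under A ∈ T) :
    (Multiset.card (normalizedFactors (differentIdeal A B)) : ℤ) =
      ∑ p ∈ T, ((finrank A B : ℤ) - (IsDedekindDomain.primesOverFinset p B).card) := by
  classical
  set D := normalizedFactors (differentIdeal A B) with hD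
  have hchar : ∀ p : Ideal A, p.IsMaximal → CharZero (A ⧸ p) := by
    intro p hp
    letI : Field (A ⧸ p) := Ideal.Quotient.field p
    exact charZero_of_injective_algebraMap (algebraMap K₀ (A ⧸ p)).injective
  have hdisj : (T : Set (Ideal A)).PairwiseDisjoint
      (fun p => IsDedekindDomain.primesOverFinset p B) := by
    intro p hp p' hp' hpp'
    haveI := (hT p hp).1
    haveI := (hT p' hp').1
    exact disjoint_primesOverFinset A (hT p hp).2 (hT p' hp').2 hpp'
  have h1 : (∑ p ∈ T, ((finrank A B : ℤ) - (IsDedekindDomain.primesOverFinset p B).card)) =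
      ∑ p ∈ T, ∑ P ∈ IsDedekindDomain.primesOverFinset p B, (D.count P : ℤ) := by
    refine Finset.sum_congr rfl fun p hp => ?_
    haveI := (hT p hp).1
    haveI := hchar p (hT p hp).1
    rw [← sum_ramificationIdx_sub_one A hf (hT p hp).2]
    refine Finset.sum_congr rfl fun P hP => ?_
    rw [IsDedekindDomain.mem_primesOverFinset_iff (hT p hp).2 B] at hP
    haveI := hP.1
    haveI := hP.2
    have h2 := count_eq_ramificationIdx_sub_one A (hT p hp).2 P
    have h3 : 0 < P.ramificationIdx A := Ideal.ramificationIdx_pos P A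
    rw [hD, h2]
    omega
  rw [h1, ← Finset.sum_biUnion hdisj, ← Nat.cast_sum]
  congr 1
  symm
  apply sum_count_eq_card
  intro P hP
  rw [Multiset.mem_toFinset] at hP
  have hprime : Prime P := prime_of_normalized_factor P hP
  haveI hPp : P.IsPrime := Ideal.isPrime_of_prime hprime
  have hP0 : P ≠ ⊥ := hprime.ne_zero
  have hdvd : P ∣ differentIdeal A B := dvd_of_mem_normalizedFactors hP
  -- `P` lies over the nonzero maximal ideal `P.under A`
  have hunder0 : P.under A ≠ ⊥ := by
    obtain ⟨x, hxP, hx0⟩ := Submodule.exists_mem_ne_zero_of_ne_bot hP0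
    exact Ideal.comap_ne_bot_of_integral_mem hx0 hxP (Algebra.IsIntegral.isIntegral x)
  haveI hmax : (P.under A).IsMaximal :=
    Ideal.IsPrime.isMaximal (Ideal.comap_isPrime _ _) hunder0
  haveI hlies : P.LiesOver (P.under A) := ⟨rfl⟩
  haveI := hchar (P.under A) hmax
  have hcount := count_eq_ramificationIdx_sub_one A hunder0 P
  have hpos : 0 < D.count P := Multiset.count_pos.mpr hP
  have hne1 : P.ramificationIdx A ≠ 1 := by
    intro h
    rw [hD] at hpos
    rw [hcount, h] at hpos
    exact absurd hpos (by norm_num)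
  have hmemT := hram P hPp hP0 hne1
  rw [Finset.mem_biUnion]
  exact ⟨P.under A, hmemT, (IsDedekindDomain.mem_primesOverFinset_iff hunder0 B).mpr ⟨hPp, hlies⟩⟩

end Sums

end Fermat.Agent.S18lib.RHCount
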