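/-
S18lib / RHCount / FiniteChart  (helper1): the finite chart.  `K` algebraically closed, `R` a
Dedekind domain, finite and torsion-free over `K[X]`, with fraction field `F`; `x` = image of `X`.
* `sum_fibre_le_card_differentIdeal` :
    `∑_{b ∈ T} (n - #fibre x b) ≤ #normalizedFactors (differentIdeal K[X] R)`     (any characteristic)
* `card_differentIdeal_eq_sum_fibre` : equality in characteristic zero when `S` contains all finite
  branch values.
-/
import Mathlib
import Fermat.Agent.S18lib.RHCount.Dedekind
import Fermat.Agent.ProgramR.S24.Bridge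

set_option autoImplicit false
set_option linter.style.haveILetI false
set_option linter.unusedSectionVars false

noncomputable section

namespace Fermat.Agent.S18lib.RHCount

open Polynomial IsDedekindDomain AlgebraicCurve UniqueFactorizationMonoid Module
open Fermat.Agent.ProgramR Fermat.Agent.ProgramR.RHLocal

attribute [local instance] FractionRing.liftAlgebra FractionRing.isScalarTower_liftAlgebra

/-- inertia degree one over an algebraically closed constant field. -/
theorem inertiaDeg_eq_one_of_const_surjective {k A B : Type*} [Field k] [IsAlgClosed k]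
    [CommRing A] [CommRing B] [Algebra k A] [Algebra A B] [Module.Finite A B] (p : Ideal A)
    [p.IsMaximal] (P : Ideal B) [P.IsMaximal] [P.LiesOver p]
    (hsurj : Function.Surjective (algebraMap k (A ⧸ p))) : P.inertiaDeg A = 1 := by
  rw [Ideal.inertiaDeg_eq_of_isMaximal p P]
  letI : Field (A ⧸ p) := Ideal.Quotient.field p
  letI : Field (B ⧸ P) := Ideal.Quotient.field P
  letI : Algebra k (B ⧸ P) :=
    ((algebraMap (A ⧸ p) (B ⧸ P)).comp (algebraMap k (A ⧸ p))).toAlgebra
  haveI : IsScalarTower k (A ⧸ p) (B ⧸ P) := IsScalarTower.of_algebraMap_eq fun _ => rfl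
  haveI : Module.Finite k (A ⧸ p) :=
    Module.Finite.of_surjective (Algebra.linearMap k (A ⧸ p)) hsurj
  haveI : Module.Finite (A ⧸ p) (B ⧸ P) := inferInstance
  haveI : Module.Finite k (B ⧸ P) := Module.Finite.trans (A ⧸ p) (B ⧸ P)
  have hb := IsAlgClosed.algebraMap_bijective_of_isIntegral (k := k) (K := B ⧸ P)
  have hb' : Function.Bijective (algebraMap (A ⧸ p) (B ⧸ P)) := by
    refine ⟨(algebraMap (A ⧸ p) (B ⧸ P)).injective, fun y => ?_⟩
    obtain ⟨c, hc⟩ := hb.2 y
    exact ⟨algebraMap k (A ⧸ p) c, hc⟩
  have e := LinearEquiv.ofBijective (Algebra.linearMap (A ⧸ p) (B ⧸ P)) hb'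
  rw [← e.finrank_eq, Module.finrank_self]

section Poly

variable {K : Type*} [Field K]

theorem span_X_sub_C_isMaximal' (a : K) : (Ideal.span {(X - C a : K[X])}).IsMaximal := by
  have : (Ideal.span {(X - C a : K[X])}) = RingHom.ker (Polynomial.evalRingHom a) := by
    ext p
    rw [Ideal.mem_span_singleton, RingHom.mem_ker, Polynomial.dvd_iff_isRoot]
    rfl
  rw [this]
  exact RingHom.ker_isMaximal_of_surjective _ (fun c => ⟨C c, by simp⟩)

theorem span_X_sub_C_ne_bot (a : K) : Ideal.span {(X - C a : K[X])} ≠ ⊥ := by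
  rw [Ne, Ideal.span_singleton_eq_bot]
  exact X_sub_C_ne_zero a

theorem span_X_sub_C_injective :
    Function.Injective (fun a : K => Ideal.span {(X - C a : K[X])}) := by
  intro a b hab
  have h1 : (X - C b : K[X]) ∈ Ideal.span {(X - C a : K[X])} := by
    have : Ideal.span {(X - C a : K[X])} = Ideal.span {(X - C b : K[X])} := hab
    rw [this]
    exact Ideal.mem_span_singleton_self _
  rw [Ideal.mem_span_singleton, Polynomial.dvd_iff_isRoot, Polynomial.IsRoot, eval_sub, eval_X,
    eval_C, sub_eq_zero] at h1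
  exact h1

theorem algebraMap_quotient_span_surjective (a : K) :
    Function.Surjective (algebraMap K (K[X] ⧸ Ideal.span {(X - C a : K[X])})) := by
  intro y
  obtain ⟨p, rfl⟩ := Ideal.Quotient.mk_surjective y
  refine ⟨p.eval a, ?_⟩
  rw [IsScalarTower.algebraMap_apply K K[X] (K[X] ⧸ Ideal.span {(X - C a : K[X])}),
    Ideal.Quotient.algebraMap_eq, Ideal.Quotient.eq, Ideal.mem_span_singleton,
    Polynomial.dvd_iff_isRoot]
  simp

theorem exists_eq_span_X_sub_C [IsAlgClosed K] (p : Ideal K[X]) [hp : p.IsMaximal] :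
    ∃ c : K, p = Ideal.span {(X - C c : K[X])} := by
  have hp0 : p ≠ ⊥ := Ring.ne_bot_of_isMaximal_of_not_isField hp (Polynomial.not_isField K)
  obtain ⟨q, hq⟩ := (IsPrincipalIdealRing.principal p).principal
  have hq' : p = Ideal.span {q} := hq
  have hq0 : q ≠ 0 := by
    rintro rfl
    apply hp0
    rw [hq']
    simp
  have hprime : Prime q := by
    have : (Ideal.span {q}).IsPrime := by rw [← hq']; exact hp.isPrime
    exact (Ideal.span_singleton_prime hq0).mp this
  have hdeg : q.degree ≠ 0 := by
    intro h0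
    have : IsUnit q := Polynomial.isUnit_iff_degree_eq_zero.mpr h0
    exact hprime.not_isUnit this
  obtain ⟨c, hc⟩ := IsAlgClosed.exists_root q hdeg
  refine ⟨c, ?_⟩
  have hdvd : (X - C c : K[X]) ∣ q := Polynomial.dvd_iff_isRoot.mpr hc
  have hle : p ≤ Ideal.span {(X - C c : K[X])} := by
    rw [hq', Ideal.span_singleton_le_span_singleton]
    exact hdvd
  exact hp.eq_of_le (span_X_sub_C_isMaximal' c).ne_top hle

end Poly

variable {K F : Type*} [Field K] [IsAlgClosed K] [Field F] [Algebra K F]
variable {R : Type*} [CommRing R] [IsDedekindDomain R] [Algebra R F] [IsFractionRing R F]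
  [Algebra K R] [IsScalarTower K R F] [Algebra K[X] R] [IsScalarTower K K[X] R]
  [Module.Finite K[X] R] [IsTorsionFree K[X] R]

variable (K R) in
theorem algebraMap_X_sub_C_ne_zero' (a : K) : algebraMap K[X] R (X - C a) ≠ 0 := by
  intro h
  exact X_sub_C_ne_zero a
    ((map_eq_zero_iff _ (FaithfulSMul.algebraMap_injective K[X] R)).mp h)

variable (K) in
/-- all inertia degrees are one. -/
theorem inertiaDeg_poly_eq_one (P : Ideal R) (hP : P.IsPrime) (hP0 : P ≠ ⊥) :
    P.inertiaDeg K[X] = 1 := by
  have hunder0 : P.under K[X] ≠ ⊥ := by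
    obtain ⟨y, hyP, hy0⟩ := Submodule.exists_mem_ne_zero_of_ne_bot hP0
    exact Ideal.comap_ne_bot_of_integral_mem hy0 hyP (Algebra.IsIntegral.isIntegral y)
  haveI hmax : (P.under K[X]).IsMaximal :=
    Ideal.IsPrime.isMaximal (Ideal.comap_isPrime _ _) hunder0
  haveI : P.LiesOver (P.under K[X]) := ⟨rfl⟩
  haveI : P.IsMaximal := Ideal.IsPrime.isMaximal hP hP0
  obtain ⟨c, hc⟩ := exists_eq_span_X_sub_C (P.under K[X])
  refine inertiaDeg_eq_one_of_const_surjective (k := K) (P.under K[X]) P ?_
  rw [hc]
  exact algebraMap_quotient_span_surjective c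

/-- the prime of `K[X]` under a prime of the chart containing `X - a`. -/
theorem comap_eq_span_of_mem (Q : HeightOneSpectrum R) (a : K)
    (hQ : algebraMap K[X] R (X - C a) ∈ Q.asIdeal) :
    Q.asIdeal.comap (algebraMap K[X] R) = Ideal.span {(X - C a : K[X])} := by
  have hmax := span_X_sub_C_isMaximal' (K := K) a
  have hle : Ideal.span {(X - C a : K[X])} ≤ Q.asIdeal.comap (algebraMap K[X] R) := by
    rw [Ideal.span_le, Set.singleton_subset_iff]
    exact hQ
  have hne : Q.asIdeal.comap (algebraMap K[X] R) ≠ ⊤ :=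
    (Ideal.comap_isPrime (algebraMap K[X] R) Q.asIdeal).ne_top
  exact (hmax.eq_of_le hne hle).symm

variable (R) in
/-- the primes over `X - b`, counted as height-one primes containing `X - b`. -/
theorem card_primesOverFinset_eq (b : K) :
    (IsDedekindDomain.primesOverFinset (Ideal.span {(X - C b : K[X])}) R).card =
      Nat.card {P : HeightOneSpectrum R // algebraMap K[X] R (X - C b) ∈ P.asIdeal} := by
  haveI := span_X_sub_C_isMaximal' (K := K) b
  have hb0 := span_X_sub_C_ne_bot (K := K) b
  rw [← Nat.card_eq_finsetCard]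
  refine Nat.card_congr
    { toFun := fun P => ⟨⟨P.1, ((IsDedekindDomain.mem_primesOverFinset_iff hb0 R).mp P.2).1, ?_⟩, ?_⟩
      invFun := fun Q => ⟨Q.1.asIdeal, (IsDedekindDomain.mem_primesOverFinset_iff hb0 R).mpr
        ⟨Q.1.isPrime, ⟨(comap_eq_span_of_mem Q.1 b Q.2).symm⟩⟩⟩
      left_inv := fun P => rfl
      right_inv := fun Q => rfl }
  · haveI := ((IsDedekindDomain.mem_primesOverFinset_iff hb0 R).mp P.2).2
    exact ne_bot_of_liesOver K[X] hb0 P.1
  · have h := ((IsDedekindDomain.mem_primesOverFinset_iff hb0 R).mp P.2).2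
    have h1 : (X - C b : K[X]) ∈ P.1.under K[X] := by
      rw [← h.over]
      exact Ideal.mem_span_singleton_self _
    exact h1

variable (K R) in
/-- the function `x`, the image of `X`. -/
abbrev xOf (F : Type*) [Field F] [Algebra R F] : F := algebraMap R F (algebraMap K[X] R X)

theorem algebraMap_X_sub_C_eq (a : K) :
    algebraMap R F (algebraMap K[X] R (X - C a)) = xOf K R F - algebraMap K F a := by
  rw [map_sub, map_sub]
  congr 1
  rw [← Polynomial.algebraMap_eq, ← IsScalarTower.algebraMap_apply K K[X] R,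
    ← IsScalarTower.algebraMap_apply K R F]

variable (F) in
/-- places over `x = b` counted by primes. -/
theorem card_fibre_eq (b : K) :
    Nat.card (fibre (K := K) (xOf K R F) b) =
      (IsDedekindDomain.primesOverFinset (Ideal.span {(X - C b : K[X])}) R).card := by
  rw [card_primesOverFinset_eq R b]
  exact S24.card_fibre_eq_card_primes_poly (K := K) (F := F) (R := R) b
    (algebraMap_X_sub_C_ne_zero' K R b)

/-- the order of `x - a` at the place of `Q` is the ramification index of `Q`. -/
theorem ord_eq_ramificationIdx' (Q : HeightOneSpectrum R) (a : K)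
    (hQ : algebraMap K[X] R (X - C a) ∈ Q.asIdeal) :
    (Place.ofHeightOneSpectrum (K := K) (F := F) Q).ord (xOf K R F - algebraMap K F a) =
      (Q.asIdeal.ramificationIdx K[X] : ℤ) := by
  rw [← algebraMap_X_sub_C_eq, FF.ord_algebraMap_eq_count (K := K) (F := F) Q
    (algebraMap_X_sub_C_ne_zero' K R a)]
  have : Q.asIdeal.LiesOver (Ideal.span {(X - C a : K[X])}) :=
    ⟨(comap_eq_span_of_mem Q a hQ).symm⟩
  have hmap : (Ideal.span {(X - C a : K[X])}).map (algebraMap K[X] R) =
      Ideal.span {algebraMap K[X] R (X - C a)} := by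
    rw [Ideal.map_span, Set.image_singleton]
  have hne : (Ideal.span {(X - C a : K[X])}).map (algebraMap K[X] R) ≠ ⊥ := by
    rw [hmap, Ne, Ideal.span_singleton_eq_bot]
    exact algebraMap_X_sub_C_ne_zero' K R a
  rw [Ideal.IsDedekindDomain.ramificationIdx_eq_normalizedFactors_count
    (Ideal.span {(X - C a : K[X])}) Q.asIdeal hne, hmap]

variable [Algebra.IsSeparable (FractionRing K[X]) (FractionRing R)]

variable (F) in
/-- **Finite chart, lower bound** (any characteristic). -/
theorem sum_fibre_le_card_differentIdeal (T : Finset K) :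
    (∑ b ∈ T, ((finrank K[X] R : ℤ) - Nat.card (fibre (K := K) (xOf K R F) b))) ≤
      Multiset.card (normalizedFactors (differentIdeal K[X] R)) := by
  classical
  have h := sum_le_card_normalizedFactors_differentIdeal K[X] (B := R)
    (fun P hP hP0 => inertiaDeg_poly_eq_one K P hP hP0)
    (T.image (fun a : K => Ideal.span {(X - C a : K[X])}))
    (fun p hp => by
      obtain ⟨a, -, rfl⟩ := Finset.mem_image.mp hp
      exact ⟨span_X_sub_C_isMaximal' a, span_X_sub_C_ne_bot a⟩)
  rw [Finset.sum_image (fun a _ b _ hab => span_X_sub_C_injective hab)] at h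
  refine le_trans (le_of_eq ?_) h
  refine Finset.sum_congr rfl fun b _ => ?_
  rw [card_fibre_eq F b]

variable (F) in
/-- **Finite chart, tame equality** (characteristic zero, `S` contains all finite branch
values). -/
theorem card_differentIdeal_eq_sum_fibre [CharZero K] (S : Finset K)
    (hS : ∀ a : K, a ∉ S → ∀ P : Place K F, 0 < P.ord (xOf K R F - algebraMap K F a) →
      P.ord (xOf K R F - algebraMap K F a) = 1) :
    (Multiset.card (normalizedFactors (differentIdeal K[X] R)) : ℤ) =
      ∑ a ∈ S, ((finrank K[X] R : ℤ) - Nat.card (fibre (K := K) (xOf K R F) a)) := by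
  classical
  have h := card_normalizedFactors_differentIdeal_eq K[X] (B := R) (K₀ := K)
    (fun P hP hP0 => inertiaDeg_poly_eq_one K P hP hP0)
    (S.image (fun a : K => Ideal.span {(X - C a : K[X])}))
    (fun p hp => by
      obtain ⟨a, -, rfl⟩ := Finset.mem_image.mp hp
      exact ⟨span_X_sub_C_isMaximal' a, span_X_sub_C_ne_bot a⟩)
    (fun P hP hP0 hne => by
      have hunder0 : P.under K[X] ≠ ⊥ := by
        obtain ⟨y, hyP, hy0⟩ := Submodule.exists_mem_ne_zero_of_ne_bot hP0
        exact Ideal.comap_ne_bot_of_integral_mem hy0 hyP (Algebra.IsIntegral.isIntegral y)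
      haveI hmax : (P.under K[X]).IsMaximal :=
        Ideal.IsPrime.isMaximal (Ideal.comap_isPrime _ _) hunder0
      obtain ⟨c, hc⟩ := exists_eq_span_X_sub_C (P.under K[X])
      rw [hc]
      refine Finset.mem_image.mpr ⟨c, ?_, rfl⟩
      by_contra hcS
      apply hne
      let Q : HeightOneSpectrum R := ⟨P, hP, hP0⟩
      have hQ : algebraMap K[X] R (X - C c) ∈ Q.asIdeal := by
        have : (X - C c : K[X]) ∈ P.under K[X] := by
          rw [hc]; exact Ideal.mem_span_singleton_self _
        exact this
      have h1 := ord_eq_ramificationIdx' (F := F) Q c hQ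
      have hpos : 0 < (Place.ofHeightOneSpectrum (K := K) (F := F) Q).ord
          (xOf K R F - algebraMap K F c) := by
        rw [h1]
        exact_mod_cast Ideal.ramificationIdx_pos P K[X]
      have h2 := hS c hcS _ hpos
      rw [h1] at h2
      exact_mod_cast h2)
  rw [Finset.sum_image (fun a _ b _ hab => span_X_sub_C_injective hab)] at h
  rw [h]
  refine Finset.sum_congr rfl fun b _ => ?_
  rw [card_fibre_eq F b]

end Fermat.Agent.S18lib.RHCount
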