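/-
S18lib / RHCount / InftyChart  (helper1): the chart at infinity.  `K` algebraically closed, `F` a
`RatFunc K`-algebra, `Rinf` a Dedekind domain, finite and torsion-free over `Ainf K`, with fraction
field `F`; `x` = image of `X`.
* `sub_card_polar_le_card_differentIdeal` :
    `n - #polar x ≤ #normalizedFactors (differentIdeal (Ainf K) Rinf)`     (any characteristic)
* `card_differentIdeal_eq_sub_card_polar` : equality in characteristic zero.
-/
import Mathlib
import Fermat.Agent.S18lib.RHCount.FiniteChart
import Fermat.Agent.ProgramR.RR.DiscInf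
import Fermat.Agent.ProgramR.CuspLocal.AinfValuation

set_option autoImplicit false
set_option linter.style.haveILetI false
set_option linter.unusedSectionVars false

noncomputable section

namespace Fermat.Agent.S18lib.RHCount

open Polynomial IsDedekindDomain AlgebraicCurve UniqueFactorizationMonoid Module
open Fermat.Agent.ProgramR Fermat.Agent.ProgramR.RHLocal Fermat.Agent.ProgramR.RR
  Fermat.Agent.ProgramR.Alg Fermat.Agent.ProgramR.CuspLocal

attribute [local instance] FractionRing.liftAlgebra FractionRing.isScalarTower_liftAlgebra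

variable {K F : Type*} [Field K] [IsAlgClosed K] [Field F] [Algebra K F] [Algebra (RatFunc K) F]
  [IsScalarTower K (RatFunc K) F] [Algebra (Ainf K) F] [IsScalarTower (Ainf K) (RatFunc K) F]
variable {Rinf : Type*} [CommRing Rinf] [IsDedekindDomain Rinf] [Algebra Rinf F]
  [IsFractionRing Rinf F] [Algebra K Rinf] [IsScalarTower K Rinf F] [Algebra (Ainf K) Rinf]
  [IsScalarTower (Ainf K) Rinf F] [Module.Finite (Ainf K) Rinf] [IsTorsionFree (Ainf K) Rinf]

variable (K F) in
/-- the function `x`, the image of `X`. -/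
abbrev xInf : F := algebraMap (RatFunc K) F RatFunc.X

theorem algebraMap_Ainf_eq (a : Ainf K) :
    algebraMap (Ainf K) F a = algebraMap (RatFunc K) F (a : RatFunc K) := by
  rw [IsScalarTower.algebraMap_apply (Ainf K) (RatFunc K) F]
  rfl

variable (K F Rinf) in
theorem algebraMap_XinvAinf_eq :
    algebraMap Rinf F (algebraMap (Ainf K) Rinf XinvAinf) = (xInf K F)⁻¹ := by
  rw [← IsScalarTower.algebraMap_apply (Ainf K) Rinf F, algebraMap_Ainf_eq, ← map_inv₀]
  rfl

variable (K F) in
theorem xInf_ne_zero : xInf K F ≠ 0 := by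
  intro h
  exact RatFunc.X_ne_zero ((map_eq_zero_iff _ (algebraMap (RatFunc K) F).injective).mp h)

variable (K Rinf) in
theorem algebraMap_XinvAinf_ne_zero' : algebraMap (Ainf K) Rinf XinvAinf ≠ 0 := by
  intro h0
  exact XinvAinf_ne_zero
    ((map_eq_zero_iff _ (FaithfulSMul.algebraMap_injective (Ainf K) Rinf)).mp h0)

variable (K) in
/-- every nonzero prime of the chart at infinity lies over the maximal ideal of `Ainf`. -/
theorem comap_eq_maximalIdeal' (P : Ideal Rinf) [P.IsPrime] (hP0 : P ≠ ⊥) :
    P.comap (algebraMap (Ainf K) Rinf) = IsLocalRing.maximalIdeal (Ainf K) := by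
  have hne : P.comap (algebraMap (Ainf K) Rinf) ≠ ⊥ := by
    obtain ⟨y, hyP, hy0⟩ := Submodule.exists_mem_ne_zero_of_ne_bot hP0
    exact Ideal.comap_ne_bot_of_integral_mem hy0 hyP (Algebra.IsIntegral.isIntegral y)
  have hprime : (P.comap (algebraMap (Ainf K) Rinf)).IsPrime := Ideal.comap_isPrime _ _
  exact IsLocalRing.eq_maximalIdeal (hprime.isMaximal hne)

variable (K) in
theorem maximalIdeal_Ainf_ne_bot : IsLocalRing.maximalIdeal (Ainf K) ≠ ⊥ := by
  rw [maximalIdeal_Ainf_eq, Ne, Ideal.span_singleton_eq_bot]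
  exact XinvAinf_ne_zero

variable (K) in
theorem algebraMap_quotient_maximalIdeal_Ainf_surjective :
    Function.Surjective (algebraMap K (Ainf K ⧸ IsLocalRing.maximalIdeal (Ainf K))) := by
  intro y
  obtain ⟨r, rfl⟩ := Ideal.Quotient.mk_surjective y
  obtain ⟨c, hc⟩ := exists_sub_mem_maximalIdeal_Ainf r
  refine ⟨c, ?_⟩
  rw [IsScalarTower.algebraMap_apply K (Ainf K) (Ainf K ⧸ IsLocalRing.maximalIdeal (Ainf K)),
    Ideal.Quotient.algebraMap_eq, eq_comm, Ideal.Quotient.eq]
  exact hc

variable (K) in
/-- all inertia degrees are one. -/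
theorem inertiaDeg_Ainf_eq_one (P : Ideal Rinf) (hP : P.IsPrime) (hP0 : P ≠ ⊥) :
    P.inertiaDeg (Ainf K) = 1 := by
  haveI : P.LiesOver (IsLocalRing.maximalIdeal (Ainf K)) :=
    ⟨(comap_eq_maximalIdeal' K P hP0).symm⟩
  haveI : P.IsMaximal := Ideal.IsPrime.isMaximal hP hP0
  exact inertiaDeg_eq_one_of_const_surjective (k := K) (IsLocalRing.maximalIdeal (Ainf K)) P
    (algebraMap_quotient_maximalIdeal_Ainf_surjective K)

variable (K Rinf) in
/-- the primes over the maximal ideal of `Ainf` are all the height-one primes. -/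
theorem card_primesOverFinset_maximalIdeal :
    (IsDedekindDomain.primesOverFinset (IsLocalRing.maximalIdeal (Ainf K)) Rinf).card =
      Nat.card (HeightOneSpectrum Rinf) := by
  have hm0 := maximalIdeal_Ainf_ne_bot K
  rw [← Nat.card_eq_finsetCard]
  refine Nat.card_congr
    { toFun := fun P => ⟨P.1, ((IsDedekindDomain.mem_primesOverFinset_iff hm0 Rinf).mp P.2).1, ?_⟩
      invFun := fun Q => ⟨Q.asIdeal, (IsDedekindDomain.mem_primesOverFinset_iff hm0 Rinf).mpr
        ⟨Q.isPrime, ⟨by haveI := Q.isPrime; exact (comap_eq_maximalIdeal' K Q.asIdeal Q.ne_bot).symm⟩⟩⟩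
      left_inv := fun P => rfl
      right_inv := fun Q => rfl }
  haveI := ((IsDedekindDomain.mem_primesOverFinset_iff hm0 Rinf).mp P.2).2
  exact ne_bot_of_liesOver (Ainf K) hm0 P.1

variable (K F Rinf) in
/-- the chart at infinity is finite at every pole of `x`. -/
theorem algebraMap_Rinf_mem (v : Place K F) (hv : v.ord (xInf K F) < 0) (s : Rinf) :
    algebraMap Rinf F s ∈ v.toValuationSubring := by
  refine FF.mem_of_isIntegral_of_le v (S := Ainf K) (fun a => ?_)
    ((Algebra.IsIntegral.isIntegral (R := Ainf K) s).map (IsScalarTower.toAlgHom (Ainf K) Rinf F))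
  rw [algebraMap_Ainf_eq]
  refine algebraMap_mem_of_mem_Ainf v.toValuationSubring (fun c => ?_) ?_ a.2
  · have h : algebraMap (RatFunc K) F (RatFunc.C c) = algebraMap K F c := by
      rw [IsScalarTower.algebraMap_apply K (RatFunc K) F]
      rfl
    rw [h]
    exact v.algebraMap_mem' c
  · intro hmem
    have h0 : 0 ≤ v.ord (xInf K F) := (FF.mem_iff_ord_nonneg v _).mp hmem
    exact absurd hv (not_lt.mpr h0)

variable (K F Rinf) in
/-- poles of `x` counted by primes of the chart at infinity. -/
theorem card_polar_eq :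
    Nat.card (polar (K := K) (xInf K F)) =
      (IsDedekindDomain.primesOverFinset (IsLocalRing.maximalIdeal (Ainf K)) Rinf).card := by
  rw [card_primesOverFinset_maximalIdeal K Rinf]
  refine S24.card_polar_eq_card_primes (K := K) (R := Rinf) (xInf K F)
    (algebraMap (Ainf K) Rinf XinvAinf) (algebraMap_XinvAinf_eq K F Rinf) (xInf_ne_zero K F)
    (fun P => ?_) (fun v hv s => algebraMap_Rinf_mem K F Rinf v hv s)
  haveI := P.isPrime
  have h1 := comap_eq_maximalIdeal' K P.asIdeal P.ne_bot
  have h2 : (XinvAinf : Ainf K) ∈ IsLocalRing.maximalIdeal (Ainf K) := by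
    rw [maximalIdeal_Ainf_eq]
    exact Ideal.mem_span_singleton_self _
  rw [← h1] at h2
  exact h2

variable [Algebra.IsSeparable (FractionRing (Ainf K)) (FractionRing Rinf)]

variable (K F Rinf) in
/-- **Chart at infinity, lower bound** (any characteristic). -/
theorem sub_card_polar_le_card_differentIdeal :
    (finrank (Ainf K) Rinf : ℤ) - Nat.card (polar (K := K) (xInf K F)) ≤
      Multiset.card (normalizedFactors (differentIdeal (Ainf K) Rinf)) := by
  classical
  have h := sum_le_card_normalizedFactors_differentIdeal (Ainf K) (B := Rinf)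
    (fun P hP hP0 => inertiaDeg_Ainf_eq_one K P hP hP0)
    {IsLocalRing.maximalIdeal (Ainf K)}
    (fun p hp => by
      rw [Finset.mem_singleton] at hp
      subst hp
      exact ⟨inferInstance, maximalIdeal_Ainf_ne_bot K⟩)
  rw [Finset.sum_singleton] at h
  rwa [card_polar_eq K F Rinf]

variable (K F Rinf) in
/-- **Chart at infinity, tame equality** (characteristic zero). -/
theorem card_differentIdeal_eq_sub_card_polar [CharZero K] :
    (Multiset.card (normalizedFactors (differentIdeal (Ainf K) Rinf)) : ℤ) =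
      (finrank (Ainf K) Rinf : ℤ) - Nat.card (polar (K := K) (xInf K F)) := by
  classical
  have h := card_normalizedFactors_differentIdeal_eq (Ainf K) (B := Rinf) (K₀ := K)
    (fun P hP hP0 => inertiaDeg_Ainf_eq_one K P hP hP0)
    {IsLocalRing.maximalIdeal (Ainf K)}
    (fun p hp => by
      rw [Finset.mem_singleton] at hp
      subst hp
      exact ⟨inferInstance, maximalIdeal_Ainf_ne_bot K⟩)
    (fun P hP hP0 _ => by
      haveI := hP
      rw [Finset.mem_singleton]
      exact comap_eq_maximalIdeal' K P hP0)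
  rw [Finset.sum_singleton] at h
  rwa [card_polar_eq K F Rinf]

end Fermat.Agent.S18lib.RHCount
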