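/-
S18lib / RHCount / Main  (helper1): package (RH-count) = glue between the Riemann–Hurwitz formula in
"degree of the two differents" form (RRgen) and the fibre-count form consumed by
`Tame.genus_le_of_tame`:
* `rhLower_of_charts` : `2g - 2 = -2n + deg Diff_fin + deg Diff_inf` ⇒ `Tame.RHLower K x n g`
  (any characteristic);
* `rh_le_of_charts`   : in characteristic zero, if `S` contains all finite branch values,
  `2g - 2 = ∑_{a ∈ S} (n - #zeros (x - a)) + (n - #poles x) - 2n`.
Abstract in the two Dedekind charts `R ⊇ K[X]`, `Rinf ⊇ Ainf K` (then specialised to the integral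
closures).
-/
import Mathlib
import Fermat.Agent.S18lib.RHCount.InftyChart
import Fermat.Agent.S18lib.Tame.Count

set_option autoImplicit false
set_option linter.style.haveILetI false
set_option linter.unusedSectionVars false

noncomputable section

namespace Fermat.Agent.S18lib.RHCount

open Polynomial IsDedekindDomain AlgebraicCurve UniqueFactorizationMonoid Module
open Fermat.Agent.ProgramR Fermat.Agent.ProgramR.RHLocal Fermat.Agent.ProgramR.RR
  Fermat.Agent.ProgramR.Alg

attribute [local instance] FractionRing.liftAlgebra FractionRing.isScalarTower_liftAlgebra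

section Charts

variable {K F : Type*} [Field K] [IsAlgClosed K] [Field F] [Algebra K F] [Algebra (RatFunc K) F]
  [IsScalarTower K (RatFunc K) F] [Algebra (Ainf K) F] [IsScalarTower (Ainf K) (RatFunc K) F]
variable {R : Type*} [CommRing R] [IsDedekindDomain R] [Algebra R F] [IsFractionRing R F]
  [Algebra K R] [IsScalarTower K R F] [Algebra K[X] R] [IsScalarTower K K[X] R]
  [Module.Finite K[X] R] [IsTorsionFree K[X] R]
  [Algebra.IsSeparable (FractionRing K[X]) (FractionRing R)]
variable {Rinf : Type*} [CommRing Rinf] [IsDedekindDomain Rinf] [Algebra Rinf F]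
  [IsFractionRing Rinf F] [Algebra K Rinf] [IsScalarTower K Rinf F] [Algebra (Ainf K) Rinf]
  [IsScalarTower (Ainf K) Rinf F] [Module.Finite (Ainf K) Rinf] [IsTorsionFree (Ainf K) Rinf]
  [Algebra.IsSeparable (FractionRing (Ainf K)) (FractionRing Rinf)]

omit [IsAlgClosed K] [IsScalarTower K (RatFunc K) F] in
theorem zerosOf_eq_fibre (x : F) (b : K) :
    Tame.zerosOf (K := K) (x - algebraMap K F b) = fibre (K := K) x b := rfl

omit [IsAlgClosed K] [IsScalarTower K (RatFunc K) F] in
theorem polesOf_eq_polar (x : F) : Tame.polesOf (K := K) x = polar (K := K) x := rfl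

variable (R Rinf) in
/-- **RH lower bound in fibre-count form**, any characteristic. -/
theorem rhLower_of_charts (hx : xOf K R F = xInf K F) {n g : ℕ}
    (hn : finrank K[X] R = n) (hn' : finrank (Ainf K) Rinf = n)
    (hg : 2 * (g : ℤ) - 2 = -2 * (n : ℤ)
      + Multiset.card (normalizedFactors (differentIdeal K[X] R))
      + Multiset.card (normalizedFactors (differentIdeal (Ainf K) Rinf))) :
    Tame.RHLower K (xInf K F) n g := by
  intro T
  have h1 := sum_fibre_le_card_differentIdeal (K := K) (R := R) F T
  have h2 := sub_card_polar_le_card_differentIdeal K F Rinf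
  rw [hx, hn] at h1
  rw [hn'] at h2
  simp only [zerosOf_eq_fibre, polesOf_eq_polar]
  linarith

variable (R Rinf) in
/-- **RH equality in fibre-count form**, characteristic zero, `S` ⊇ finite branch values. -/
theorem rh_eq_of_charts [CharZero K] (hx : xOf K R F = xInf K F) {n g : ℕ}
    (hn : finrank K[X] R = n) (hn' : finrank (Ainf K) Rinf = n)
    (hg : 2 * (g : ℤ) - 2 = -2 * (n : ℤ)
      + Multiset.card (normalizedFactors (differentIdeal K[X] R))
      + Multiset.card (normalizedFactors (differentIdeal (Ainf K) Rinf)))
    (S : Finset K)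
    (hS : ∀ a : K, a ∉ S → ∀ P : Place K F, 0 < P.ord (xInf K F - algebraMap K F a) →
      P.ord (xInf K F - algebraMap K F a) = 1) :
    2 * (g : ℤ) - 2 =
      (∑ a ∈ S, ((n : ℤ) - Nat.card (Tame.zerosOf (K := K) (xInf K F - algebraMap K F a))))
        + ((n : ℤ) - Nat.card (Tame.polesOf (K := K) (xInf K F))) - 2 * (n : ℤ) := by
  have h1 := card_differentIdeal_eq_sum_fibre (K := K) (R := R) F S (by rw [hx]; exact hS)
  have h2 := card_differentIdeal_eq_sub_card_polar K F Rinf
  rw [hx, hn] at h1
  rw [hn'] at h2
  simp only [zerosOf_eq_fibre, polesOf_eq_polar]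
  rw [hg, h1, h2]
  ring

end Charts

end Fermat.Agent.S18lib.RHCount
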