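/-
S18lib / RHCount / RRgenSetting  (helper1): (RH-count) in EXACTLY the variable block of
`S18lib/RRgen` (helper9): `K` algebraically closed, `F` finite separable over `RatFunc K`,
`B` / `Binf` abstract Dedekind charts over `K[X]` / `Ainf K`.
From the Riemann–Hurwitz formula
`2g - 2 = -2n + #nF(differentIdeal K[X] B) + #nF(differentIdeal (Ainf K) Binf)`:
* `rhLower`  : `Tame.RHLower K x n g`                                      (any characteristic)
* `rh_eq`    : `2g - 2 = ∑_{a ∈ S} (n - #zeros (x - a)) + (n - #poles x) - 2n`  (characteristic 0,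
               `S` ⊇ finite branch values).
-/
import Mathlib
import Fermat.Agent.S18lib.RHCount.Main
import Fermat.Agent.ProgramR.Alg.TraceDual

set_option autoImplicit false
set_option linter.style.haveILetI false
set_option linter.unusedSectionVars false

noncomputable section

namespace Fermat.Agent.S18lib.RHCount

open Polynomial IsDedekindDomain AlgebraicCurve UniqueFactorizationMonoid Module
open Fermat.Agent.ProgramR Fermat.Agent.ProgramR.RHLocal Fermat.Agent.ProgramR.RR
  Fermat.Agent.ProgramR.Alg

attribute [local instance] FractionRing.liftAlgebra FractionRing.isScalarTower_liftAlgebra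

variable (K : Type*) [Field K] [IsAlgClosed K]
  (F : Type*) [Field F] [Algebra (RatFunc K) F] [Algebra K F] [IsScalarTower K (RatFunc K) F]
  [FiniteDimensional (RatFunc K) F] [Algebra.IsSeparable (RatFunc K) F]
  (B : Type*) [CommRing B] [IsDedekindDomain B] [Algebra K[X] B] [Module.Finite K[X] B]
  [IsTorsionFree K[X] B] [Algebra B F] [IsFractionRing B F] [Algebra K[X] F]
  [IsScalarTower K[X] (RatFunc K) F] [IsScalarTower K[X] B F]
  [Algebra K B] [IsScalarTower K B F]
  (Binf : Type*) [CommRing Binf] [IsDedekindDomain Binf] [Algebra (Ainf K) Binf]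
  [Module.Finite (Ainf K) Binf] [IsTorsionFree (Ainf K) Binf] [Algebra Binf F]
  [IsFractionRing Binf F] [Algebra (Ainf K) F] [IsScalarTower (Ainf K) (RatFunc K) F]
  [IsScalarTower (Ainf K) Binf F]
  [Algebra K Binf] [IsScalarTower K Binf F]

include F in
theorem isScalarTower_const_poly : IsScalarTower K K[X] B := by
  refine IsScalarTower.of_algebraMap_eq fun c => ?_
  apply IsFractionRing.injective B F
  rw [← IsScalarTower.algebraMap_apply K B F, ← IsScalarTower.algebraMap_apply K[X] B F,
    IsScalarTower.algebraMap_apply K[X] (RatFunc K) F, IsScalarTower.algebraMap_apply K (RatFunc K) F]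
  congr 1

theorem xOf_eq_xInf :
    haveI := isScalarTower_const_poly K F B
    xOf K B F = xInf K F := by
  show algebraMap B F (algebraMap K[X] B X) = algebraMap (RatFunc K) F RatFunc.X
  rw [← IsScalarTower.algebraMap_apply K[X] B F, IsScalarTower.algebraMap_apply K[X] (RatFunc K) F,
    RatFunc.algebraMap_X]

theorem finrank_chart_fin : finrank K[X] B = finrank (RatFunc K) F :=
  (IsFractionRing.finrank_eq K[X] (RatFunc K) B F).symm

theorem finrank_chart_inf : finrank (Ainf K) Binf = finrank (RatFunc K) F :=
  (IsFractionRing.finrank_eq (Ainf K) (RatFunc K) Binf F).symm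

include F in
theorem isSeparable_chart_fin : Algebra.IsSeparable (FractionRing K[X]) (FractionRing B) :=
  Alg.isSeparable_fractionRing_aux K[X] (RatFunc K) F B

include F in
theorem isSeparable_chart_inf : Algebra.IsSeparable (FractionRing (Ainf K)) (FractionRing Binf) :=
  Alg.isSeparable_fractionRing_aux (Ainf K) (RatFunc K) F Binf

/-- **RH lower bound in fibre-count form** (any characteristic) in the RRgen setting. -/
theorem rhLower {g : ℕ}
    (hg : 2 * (g : ℤ) - 2 = -2 * (finrank (RatFunc K) F : ℤ)
      + Multiset.card (normalizedFactors (differentIdeal K[X] B))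
      + Multiset.card (normalizedFactors (differentIdeal (Ainf K) Binf))) :
    Tame.RHLower K (algebraMap (RatFunc K) F RatFunc.X) (finrank (RatFunc K) F) g := by
  haveI := isScalarTower_const_poly K F B
  haveI := isSeparable_chart_fin K F B
  haveI := isSeparable_chart_inf K F Binf
  exact rhLower_of_charts (K := K) (F := F) B Binf (xOf_eq_xInf K F B) (finrank_chart_fin K F B)
    (finrank_chart_inf K F Binf) hg

/-- **RH equality in fibre-count form** (characteristic zero, `S` ⊇ finite branch values) in the
RRgen setting. -/
theorem rh_eq [CharZero K] {g : ℕ}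
    (hg : 2 * (g : ℤ) - 2 = -2 * (finrank (RatFunc K) F : ℤ)
      + Multiset.card (normalizedFactors (differentIdeal K[X] B))
      + Multiset.card (normalizedFactors (differentIdeal (Ainf K) Binf)))
    (S : Finset K)
    (hS : ∀ a : K, a ∉ S → ∀ P : Place K F,
      0 < P.ord (algebraMap (RatFunc K) F RatFunc.X - algebraMap K F a) →
      P.ord (algebraMap (RatFunc K) F RatFunc.X - algebraMap K F a) = 1) :
    2 * (g : ℤ) - 2 =
      (∑ a ∈ S, ((finrank (RatFunc K) F : ℤ) - Nat.card (Tame.zerosOf (K := K)
        (algebraMap (RatFunc K) F RatFunc.X - algebraMap K F a))))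
        + ((finrank (RatFunc K) F : ℤ) - Nat.card (Tame.polesOf (K := K)
          (algebraMap (RatFunc K) F RatFunc.X))) - 2 * (finrank (RatFunc K) F : ℤ) := by
  haveI := isScalarTower_const_poly K F B
  haveI := isSeparable_chart_fin K F B
  haveI := isSeparable_chart_inf K F Binf
  exact rh_eq_of_charts (K := K) (F := F) B Binf (xOf_eq_xInf K F B) (finrank_chart_fin K F B)
    (finrank_chart_inf K F Binf) hg S hS

end Fermat.Agent.S18lib.RHCount
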