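/-
S18lib / RHCount / PoleDegree  (helper1): in the RRgen setting (`K` algebraically closed, ANY
characteristic, `F` finite separable over `RatFunc K`, `x` the image of `X`):
`deg (x)_∞ = [F : K(x)]`, hence also `deg (x - a)_0 = [F : K(x)]`.
(The `hpres` / degree-preservation input of `Tame.genus_le_of_tame`, char-free.)
-/
import Mathlib
import Fermat.Agent.S18lib.RHCount.RRgenSetting
import Fermat.Agent.S18lib.RRgen.PlaceDeg

set_option autoImplicit false
set_option linter.style.haveILetI false
set_option linter.unusedSectionVars false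

noncomputable section

namespace Fermat.Agent.S18lib.RHCount

open Polynomial IsDedekindDomain AlgebraicCurve UniqueFactorizationMonoid Module
open Fermat.Agent.ProgramR Fermat.Agent.ProgramR.RHLocal Fermat.Agent.ProgramR.RR
  Fermat.Agent.ProgramR.Alg

attribute [local instance] FractionRing.liftAlgebra FractionRing.isScalarTower_liftAlgebra

variable (K : Type*) [Field K] [IsAlgClosed K]
  (F : Type*) [Field F] [Algebra (RatFunc K) F] [Algebra K F] [IsScalarTower K (RatFunc K) F]
  [FiniteDimensional (RatFunc K) F] [Algebra.IsSeparable (RatFunc K) F]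
  (B : Type*) [CommRing B] [IsDedekindDomain B] [Algebra K[X] B] [Module.Finite K[X] B]
  [IsTorsionFree K[X] B] [Algebra B F] [IsFractionRing B F] [Algebra K[X] F]
  [IsScalarTower K[X] (RatFunc K) F] [IsScalarTower K[X] B F]
  [Algebra K B] [IsScalarTower K B F]
  (Binf : Type*) [CommRing Binf] [IsDedekindDomain Binf] [Algebra (Ainf K) Binf]
  [Module.Finite (Ainf K) Binf] [IsTorsionFree (Ainf K) Binf] [Algebra Binf F]
  [IsFractionRing Binf F] [Algebra (Ainf K) F] [IsScalarTower (Ainf K) (RatFunc K) F]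
  [IsScalarTower (Ainf K) Binf F]
  [Algebra K Binf] [IsScalarTower K Binf F]

/-- the order of `x⁻¹` at the place of `Q` is the ramification index of `Q`. -/
theorem ord_inv_eq_ramificationIdx' (Q : HeightOneSpectrum Binf) :
    (Place.ofHeightOneSpectrum (K := K) (F := F) Q).ord (xInf K F)⁻¹ =
      (Q.asIdeal.ramificationIdx (Ainf K) : ℤ) := by
  rw [← algebraMap_XinvAinf_eq K F Binf, FF.ord_algebraMap_eq_count (K := K) (F := F) Q
    (algebraMap_XinvAinf_ne_zero' K Binf)]
  haveI := Q.isPrime
  have : Q.asIdeal.LiesOver (IsLocalRing.maximalIdeal (Ainf K)) :=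
    ⟨(comap_eq_maximalIdeal' K Q.asIdeal Q.ne_bot).symm⟩
  have hmap : (IsLocalRing.maximalIdeal (Ainf K)).map (algebraMap (Ainf K) Binf) =
      Ideal.span {algebraMap (Ainf K) Binf XinvAinf} := by
    rw [maximalIdeal_Ainf_eq, Ideal.map_span, Set.image_singleton]
  have hne : (IsLocalRing.maximalIdeal (Ainf K)).map (algebraMap (Ainf K) Binf) ≠ ⊥ := by
    rw [hmap, Ne, Ideal.span_singleton_eq_bot]
    exact algebraMap_XinvAinf_ne_zero' K Binf
  rw [Ideal.IsDedekindDomain.ramificationIdx_eq_normalizedFactors_count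
    (IsLocalRing.maximalIdeal (Ainf K)) Q.asIdeal hne, hmap]

theorem ord_xInf_eq_neg_ramificationIdx (Q : HeightOneSpectrum Binf) :
    (Place.ofHeightOneSpectrum (K := K) (F := F) Q).ord (xInf K F) =
      -(Q.asIdeal.ramificationIdx (Ainf K) : ℤ) := by
  have h := ord_inv_eq_ramificationIdx' K F Binf Q
  rw [Place.ord_inv] at h
  omega

variable [HasPrincipalDivisors K F]

/-- **`deg (x)_∞ = [F : K(x)]`**, any characteristic. -/
theorem degree_poleDiv_xInf :
    Divisor.degree (Tame.poleDiv (K := K) (xInf K F)) = (finrank (Ainf K) Binf : ℤ) := by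
  classical
  have hm0 := maximalIdeal_Ainf_ne_bot K
  have hsum : Divisor.degree (Tame.poleDiv (K := K) (xInf K F)) =
      ∑ v ∈ (Tame.poleDiv (K := K) (xInf K F)).support,
        (Tame.poleDiv (K := K) (xInf K F)) v * (v.deg : ℤ) := by
    simp [Divisor.degree, Finsupp.liftAddHom_apply, Finsupp.sum]
  rw [hsum, ← sum_ramificationIdx_eq_finrank (Ainf K) (B := Binf)
    (fun P hP hP0 => inertiaDeg_Ainf_eq_one K P hP hP0) hm0, Nat.cast_sum]
  symm
  refine Finset.sum_bij
    (fun P hP => Place.ofHeightOneSpectrum (K := K) (F := F)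
      (⟨P, ((IsDedekindDomain.mem_primesOverFinset_iff hm0 Binf).mp hP).1, by
        haveI := ((IsDedekindDomain.mem_primesOverFinset_iff hm0 Binf).mp hP).2
        exact ne_bot_of_liesOver (Ainf K) hm0 P⟩ : HeightOneSpectrum Binf))
    ?_ ?_ ?_ ?_
  · intro P hP
    rw [Tame.mem_support_poleDiv, ord_xInf_eq_neg_ramificationIdx]
    have hprime := ((IsDedekindDomain.mem_primesOverFinset_iff hm0 Binf).mp hP).1
    have : 0 < P.ramificationIdx (Ainf K) := Ideal.ramificationIdx_pos P (Ainf K)
    simp only [Left.neg_neg_iff, Nat.cast_pos]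
    exact this
  · intro P hP P' hP' h
    have := FF.ofHeightOneSpectrum_injective (K := K) (F := F) h
    exact congrArg HeightOneSpectrum.asIdeal this
  · intro v hv
    rw [Tame.mem_support_poleDiv] at hv
    have hmem : v ∈ Set.range
        (Place.ofHeightOneSpectrum (K := K) (F := F) (R := Binf)) := by
      rw [FF.range_ofHeightOneSpectrum]
      exact fun s => algebraMap_Rinf_mem K F Binf v hv s
    obtain ⟨Q, rfl⟩ := hmem
    haveI := Q.isPrime
    refine ⟨Q.asIdeal, (IsDedekindDomain.mem_primesOverFinset_iff hm0 Binf).mpr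
      ⟨Q.isPrime, ⟨(comap_eq_maximalIdeal' K Q.asIdeal Q.ne_bot).symm⟩⟩, rfl⟩
  · intro P hP
    have hprime := ((IsDedekindDomain.mem_primesOverFinset_iff hm0 Binf).mp hP).1
    rw [Tame.poleDiv_apply, ord_xInf_eq_neg_ramificationIdx, neg_neg]
    have hdeg : (Place.ofHeightOneSpectrum (K := K) (F := F)
        (⟨P, hprime, by
          haveI := ((IsDedekindDomain.mem_primesOverFinset_iff hm0 Binf).mp hP).2
          exact ne_bot_of_liesOver (Ainf K) hm0 P⟩ : HeightOneSpectrum Binf)).deg = 1 :=
      RRgen.deg_placeInf K F Binf _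
    rw [hdeg]
    have : (0 : ℤ) ≤ (P.ramificationIdx (Ainf K) : ℤ) := by positivity
    rw [max_eq_left this]
    simp

include Binf in
/-- `deg (x)_∞ = [F : K(x)]` in `RatFunc` form. -/
theorem degree_poleDiv_eq_finrank :
    Divisor.degree (Tame.poleDiv (K := K) (algebraMap (RatFunc K) F RatFunc.X)) =
      (finrank (RatFunc K) F : ℤ) := by
  rw [← finrank_chart_inf K F Binf]
  exact degree_poleDiv_xInf K F Binf

end Fermat.Agent.S18lib.RHCount
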